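import Mathlib.RingTheory.SimpleModule.Basic
import Mathlib.RepresentationTheory.AlgebraRepresentation.Basic
import Mathlib.LinearAlgebra.Matrix.ToLin
import Mathlib.RingTheory.Finiteness.Basic
import Fermat.Agent.DeligneSerre.Quadratic

/-!
# An irreducible constituent of a representation with quadratic relations

If every element of a non-zero representation over an algebraically closed field satisfies
`R g + χ g • R g⁻¹ = t g`, then there is a two-dimensional representation, absolutely irreducible
or diagonal, with trace `t` and determinant `χ`.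
-/

set_option autoImplicit false
set_option linter.style.haveILetI false

noncomputable section

namespace Fermat.Agent.DeligneSerre

open Module

variable {k : Type*} [Field k] [IsAlgClosed k] {G : Type*} [Group G] {W : Type*} [AddCommGroup W]
  [Module k W] [FiniteDimensional k W]

/-- Burnside's theorem. -/
theorem span_range_eq_top_of_irreducible [Nontrivial W] (R : G →* Module.End k W)
    (hirr : ∀ U : Submodule k W, (∀ g, ∀ w ∈ U, R g w ∈ U) → U = ⊥ ∨ U = ⊤) :
    Submodule.span k (Set.range R) = ⊤ := by
  classical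
  set A : Subalgebra k (Module.End k W) := Algebra.adjoin k (Set.range R) with hA
  have hgen : ∀ g, R g ∈ A := fun g => Algebra.subset_adjoin ⟨g, rfl⟩
  haveI : IsSimpleModule A W := by
    refine isSimpleModule_iff_toSpanSingleton_surjective.mpr ⟨inferInstance, fun v hv => ?_⟩
    intro w
    let U : Submodule k W := (A.toSubmodule).map (LinearMap.applyₗ (R := k) v)
    have hU : U = ⊤ := by
      refine (hirr U fun g u hu => ?_).resolve_left fun h0 => hv ?_
      · obtain ⟨a, ha, rfl⟩ := hu
        exact ⟨R g * a, A.mul_mem (hgen g) ha, rfl⟩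
      · have : v ∈ U := ⟨1, A.one_mem, rfl⟩
        rw [h0, Submodule.mem_bot] at this
        exact this
    obtain ⟨a, ha, hw⟩ : w ∈ U := hU ▸ Submodule.mem_top
    exact ⟨⟨a, ha⟩, hw⟩
  have htop : A = ⊤ := by
    refine Algebra.eq_top_iff.2 fun f => ?_
    have hlin : ∀ (c : Module.End A W) (w : W), f (c w) = c (f w) := fun c w => by
      obtain ⟨r, rfl⟩ := (IsSimpleModule.algebraMap_end_bijective_of_isAlgClosed k (A := A)
        (V := W)).2 c
      simp only [Module.algebraMap_end_apply, map_smul]
    let F : Module.End (Module.End A W) W :=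
      { toFun := f, map_add' := map_add f, map_smul' := fun c w => hlin c w }
    let b := Module.finBasis k W
    obtain ⟨r, hr⟩ := jacobson_density F (Finset.univ.image b)
    have hf : f = (r : Module.End k W) := b.ext fun i =>
      hr (b i) (Finset.mem_image_of_mem b (Finset.mem_univ i))
    rw [hf]
    exact r.2
  have h := congrArg Subalgebra.toSubmodule htop
  rw [hA, Algebra.adjoin_eq_span, Algebra.top_toSubmodule] at h
  have hcl : (Submonoid.closure (Set.range R) : Set (Module.End k W)) = Set.range R := by
    rw [← MonoidHom.coe_mrange, Submonoid.closure_eq]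
  rwa [hcl] at h

/-- The two-dimensional representation attached to a representation with quadratic relations. -/
theorem exists_rep_of_relation {V : Type*} [AddCommGroup V] [Module k V] [FiniteDimensional k V]
    [Nontrivial V] (R : G →* Module.End k V) (χ : G →* k) (h2 : (2 : k) ≠ 0)
    (h : ∀ g, ∃ t : k, R g + χ g • R g⁻¹ = t • 1) :
    ∃ ρ : G →* Matrix (Fin 2) (Fin 2) k,
      (Submodule.span k (Set.range ρ) = ⊤ ∨ ∀ g, ρ g 0 1 = 0 ∧ ρ g 1 0 = 0) ∧
      (∀ g, R g = 1 → χ g = 1 → ρ g = 1) ∧
      ∀ g (t : k), R g + χ g • R g⁻¹ = t • 1 → (ρ g).trace = t ∧ (ρ g).det = χ g := by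
  classical
  obtain ⟨W, ⟨hWinv, hW0⟩, hWmin⟩ :=
    (wellFounded_lt (α := Submodule k V)).has_min
      {U : Submodule k V | (∀ g, ∀ w ∈ U, R g w ∈ U) ∧ U ≠ ⊥}
      ⟨⊤, fun _ _ _ => Submodule.mem_top, top_ne_bot⟩
  haveI : Nontrivial W := Submodule.nontrivial_iff_ne_bot.2 hW0
  let RW : G →* Module.End k W :=
    { toFun := fun g => (R g).restrict (hWinv g)
      map_one' := LinearMap.ext fun w => Subtype.ext (by simp)
      map_mul' := fun g g' => LinearMap.ext fun w => Subtype.ext (by simp) }
  have hirr : ∀ U : Submodule k W, (∀ g, ∀ w ∈ U, RW g w ∈ U) → U = ⊥ ∨ U = ⊤ := by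
    intro U hU
    by_cases h0 : U = ⊥
    · exact Or.inl h0
    · refine Or.inr ?_
      have hinj := W.subtype_injective
      have hm : U.map W.subtype = W := by
        by_contra hne
        refine hWmin (U.map W.subtype) ⟨fun g w hw => ?_, fun hb => h0 ?_⟩
          (lt_of_le_of_ne (Submodule.map_subtype_le W U) hne)
        · obtain ⟨u, hu, rfl⟩ := hw
          exact ⟨RW g u, hU g u hu, rfl⟩
        · exact Submodule.map_injective_of_injective hinj (hb.trans (Submodule.map_bot _).symm)
      exact Submodule.map_injective_of_injective hinj (hm.trans (Submodule.map_subtype_top W).symm)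
  have hker : ∀ g, R g = 1 → RW g = 1 := fun g hg => LinearMap.ext fun w => Subtype.ext (by
    show R g (w : V) = (w : V)
    rw [hg]; rfl)
  have hrel : ∀ g (t : k), R g + χ g • R g⁻¹ = t • 1 → RW g + χ g • RW g⁻¹ = t • 1 :=
    fun g t ht => LinearMap.ext fun w => Subtype.ext (by
      simpa [RW] using LinearMap.congr_fun ht (w : V))
  let b := Module.finBasis k W
  let σ : G →* Matrix (Fin (finrank k W)) (Fin (finrank k W)) k :=
    (LinearMap.toMatrixAlgEquiv b).toMonoidHom.comp RW
  have hσker : ∀ g, R g = 1 → σ g = 1 := fun g hg => by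
    show LinearMap.toMatrixAlgEquiv b (RW g) = 1
    rw [hker g hg, map_one]
  have hspan : Submodule.span k (Set.range σ) = ⊤ := by
    have h1 : Set.range σ = (LinearMap.toMatrixAlgEquiv b).toLinearMap '' Set.range RW := by
      rw [← Set.range_comp]; rfl
    rw [h1, Submodule.span_image, span_range_eq_top_of_irreducible RW hirr, Submodule.map_top,
      LinearMap.range_eq_top]
    exact (LinearMap.toMatrixAlgEquiv b).surjective
  have hσrel : ∀ g (t : k), R g + χ g • R g⁻¹ = t • 1 → σ g + χ g • σ g⁻¹ = t • 1 :=
      fun g t ht => by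
    have := congrArg (LinearMap.toMatrixAlgEquiv b) (hrel g t ht)
    rwa [map_add, map_smul, map_smul, map_one] at this
  have hσ : ∀ g, ∃ t : k, σ g + χ g • σ g⁻¹ = t • 1 := fun g => by
    obtain ⟨t, ht⟩ := h g
    exact ⟨t, hσrel g t ht⟩
  have hpos : 0 < finrank k W := Module.finrank_pos
  have hd : finrank k W ≤ 2 := by
    simpa using card_le_two h2 hspan (fun g g' => map_mul χ g g') hσ
  obtain ⟨d, σ, hd, hpos, hspan, hσrel, hσ, hσker⟩ :
      ∃ (d : ℕ) (σ : G →* Matrix (Fin d) (Fin d) k), d ≤ 2 ∧ 0 < d ∧
        Submodule.span k (Set.range σ) = ⊤ ∧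
        (∀ g (t : k), R g + χ g • R g⁻¹ = t • 1 → σ g + χ g • σ g⁻¹ = t • 1) ∧
        (∀ g, ∃ t : k, σ g + χ g • σ g⁻¹ = t • 1) ∧ ∀ g, R g = 1 → σ g = 1 :=
    ⟨_, σ, hd, hpos, hspan, hσrel, hσ, hσker⟩
  interval_cases d
  · -- dimension one
    let α : G →* k :=
      { toFun := fun g => σ g 0 0
        map_one' := by simp
        map_mul' := fun g g' => by simp [Matrix.mul_apply] }
    let ρ : G →* Matrix (Fin 2) (Fin 2) k :=
      { toFun := fun g => Matrix.diagonal ![α g, χ g * α g⁻¹]
        map_one' := by
          rw [← Matrix.diagonal_one]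
          congr 1
          funext i
          fin_cases i <;> simp
        map_mul' := fun g g' => by
          rw [Matrix.diagonal_mul_diagonal]
          congr 1
          funext i
          fin_cases i
          · simp
          · simp [mul_inv_rev]; ring }
    refine ⟨ρ, Or.inr fun g => ?_, fun g hg hχ => ?_, fun g t ht => ?_⟩
    · simp [ρ, Matrix.diagonal]
    · have h1 : σ g⁻¹ = 1 := by
        have := map_mul σ g⁻¹ g
        rwa [inv_mul_cancel, map_one, hσker g hg, mul_one, eq_comm] at this
      show Matrix.diagonal ![α g, χ g * α g⁻¹] = 1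
      rw [← Matrix.diagonal_one]
      congr 1
      funext i
      fin_cases i <;> simp [α, hσker g hg, h1, hχ]
    · have hαα : α g * α g⁻¹ = 1 := by rw [← map_mul, mul_inv_cancel, map_one]
      have h00 := congrFun (congrFun (hσrel g t ht) 0) 0
      refine ⟨?_, ?_⟩
      · simpa [ρ, α, Matrix.trace_fin_two] using h00
      · have hne : α g ≠ 0 := left_ne_zero_of_mul_eq_one hαα
        simp [ρ]
        field_simp
  · -- dimension two
    refine ⟨σ, Or.inl hspan, fun g hg _ => hσker g hg, fun g t ht => ?_⟩
    obtain ⟨h1, h3⟩ := trace_det_eq h2 hspan (fun g g' => map_mul χ g g') hσ g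
    refine ⟨?_, h3⟩
    rw [hσrel g t ht] at h1
    simpa using (congrFun (congrFun h1 0) 0).symm

end Fermat.Agent.DeligneSerre
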