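import Mathlib.NumberTheory.DirichletCharacter.Basic
import Mathlib.FieldTheory.Finite.Basic
import Fermat.Agent.DeligneSerre.Residue

/-!
# The inverse of the Teichmüller character
-/

set_option autoImplicit false

noncomputable section

namespace Fermat.Agent.DeligneSerre

variable {k : Type*} [Field k]

theorem natCast_sub_one_ne_zero {ℓ : ℕ} [Fact ℓ.Prime] [CharP k ℓ] :
    ((ℓ - 1 : ℕ) : k) ≠ 0 := by
  have hℓ : ℓ.Prime := Fact.out
  rw [Ne, CharP.cast_eq_zero_iff k ℓ]
  intro hd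
  have h1 := Nat.le_of_dvd (by have := hℓ.two_le; omega) hd
  have := hℓ.two_le
  omega

/-- Reduction is injective on roots of unity of order prime to the characteristic. -/
theorem eq_one_of_map_eq_one {ℓ : ℕ} [Fact ℓ.Prime] [CharP k ℓ] (φ : ZBar →+* k) {x : ZBar}
    (hx : x ^ (ℓ - 1) = 1) (h : φ x = 1) : x = 1 := by
  by_contra hne
  have hsum : ∑ i ∈ Finset.range (ℓ - 1), x ^ i = 0 := by
    have := geom_sum_mul x (ℓ - 1)
    rw [hx, sub_self, mul_eq_zero] at this
    exact this.resolve_right (sub_ne_zero.2 hne)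
  have h2 := congrArg φ hsum
  simp only [map_sum, map_pow, h, one_pow, map_zero, Finset.sum_const, Finset.card_range,
    nsmul_eq_mul, mul_one] at h2
  exact natCast_sub_one_ne_zero (k := k) h2

/-- There is an odd character modulo `ℓ` congruent to `t ↦ t⁻¹` modulo the kernel of `φ`. -/
theorem exists_inv_teichmuller {ℓ : ℕ} [Fact ℓ.Prime] (hℓ2 : ℓ ≠ 2) [CharP k ℓ]
    (φ : ZBar →+* k) :
    ∃ ψ : DirichletCharacter ℂ ℓ, ψ.Odd ∧ ∀ (t : (ZMod ℓ)ˣ) (y : ZBar),
      (y : ℂ) = ψ (t : ZMod ℓ) → φ y * ZMod.castHom dvd_rfl k (t : ZMod ℓ) = 1 := by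
  classical
  have hℓ : ℓ.Prime := Fact.out
  have hm : ℓ - 1 ≠ 0 := by have := hℓ.two_le; omega
  set c := ZMod.castHom dvd_rfl k with hc
  have hroot : ∀ t : (ZMod ℓ)ˣ, c ((t⁻¹ : (ZMod ℓ)ˣ) : ZMod ℓ) ^ (ℓ - 1) = 1 := fun t => by
    rw [← map_pow, ← Units.val_pow_eq_pow_val, ZMod.units_pow_card_sub_one_eq_one, Units.val_one,
      map_one]
  choose z hz hφz using fun t => exists_root_lift φ hm (hroot t)
  have huniq : ∀ x y : ZBar, x ^ (ℓ - 1) = 1 → y ^ (ℓ - 1) = 1 → φ x = φ y → x = y := by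
    intro x y hx hy he
    have hy0 : φ y ≠ 0 := fun h0 => by
      have := congrArg φ hy
      rw [map_pow, h0, zero_pow hm, map_one] at this
      exact zero_ne_one this
    have hy1 : y ^ (ℓ - 1 - 1) * y = 1 := by
      rw [← pow_succ, Nat.sub_add_cancel (Nat.pos_of_ne_zero hm), hy]
    have h1 : x * y ^ (ℓ - 1 - 1) = 1 := by
      refine eq_one_of_map_eq_one φ ?_ ?_
      · rw [mul_pow, hx, one_mul, ← pow_mul, mul_comm, pow_mul, hy, one_pow]
      · rw [map_mul, he, ← map_mul, mul_comm, hy1, map_one]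
    calc x = x * (y ^ (ℓ - 1 - 1) * y) := by rw [hy1, mul_one]
      _ = y := by rw [← mul_assoc, h1, one_mul]
  let f : (ZMod ℓ)ˣ →* ℂ :=
    { toFun := fun t => (z t : ℂ)
      map_one' := by
        rw [huniq (z 1) 1 (hz 1) (one_pow _) (by
          rw [hφz, inv_one, Units.val_one, map_one, map_one])]
        rfl
      map_mul' := fun s t => by
        rw [← Subalgebra.coe_mul]
        congr 1
        refine huniq _ _ (hz _) (by rw [mul_pow, hz, hz, one_mul]) ?_
        rw [map_mul, hφz, hφz, hφz, mul_inv, Units.val_mul, map_mul] }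
  refine ⟨MulChar.ofUnitHom f.toHomUnits, ?_, fun t y hy => ?_⟩
  · show MulChar.ofUnitHom f.toHomUnits (-1 : ZMod ℓ) = -1
    have h1 : MulChar.ofUnitHom f.toHomUnits ((-1 : (ZMod ℓ)ˣ) : ZMod ℓ) = (z (-1) : ℂ) := by
      rw [MulChar.ofUnitHom_coe]; rfl
    rw [Units.val_neg, Units.val_one] at h1
    rw [h1]
    have hsq : (z (-1) : ℂ) * (z (-1) : ℂ) = 1 := by
      show f (-1) * f (-1) = 1
      rw [← map_mul, neg_one_mul, neg_neg, map_one]
    rcases mul_self_eq_one_iff.1 hsq with h | h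
    · exfalso
      have h2 : z (-1) = 1 := Subtype.ext h
      have h3 := hφz (-1)
      rw [h2, map_one, inv_neg_one, Units.val_neg, Units.val_one, map_neg, map_one] at h3
      have h4 : ((2 : ℕ) : k) = 0 := by
        push_cast
        linear_combination h3
      rw [CharP.cast_eq_zero_iff k ℓ, Nat.prime_dvd_prime_iff_eq hℓ Nat.prime_two] at h4
      exact hℓ2 h4
    · exact h
  · obtain rfl : y = z t := by
      refine Subtype.ext (hy.trans ?_)
      rw [MulChar.ofUnitHom_coe]; rfl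
    rw [hφz, ← map_mul, ← Units.val_mul, inv_mul_cancel, Units.val_one, map_one]

end Fermat.Agent.DeligneSerre
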