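import Fermat.Agent.DeligneSerre.Algebraic
import Fermat.Agent.DeligneSerre.Residue

/-!
# A weight two form congruent to a weight one form

Multiplying by `2ℓ · E₁(ψ)`, `ψ` congruent to the inverse cyclotomic character, gives a form of
weight two and level `Nℓ` with the same expansion modulo `ℓ`.
-/

set_option autoImplicit false
set_option linter.style.haveILetI false

noncomputable section

namespace Fermat.Agent.DeligneSerre

open CongruenceSubgroup ModularFormClass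
open UpperHalfPlane hiding I
open Fermat.Agent.IntegralStructure (qFun qHom qHom_apply mem_qFun_of_modularFormClass)
open scoped MatrixGroups ModularForm Manifold

variable {N ℓ : ℕ} [NeZero N] [Fact ℓ.Prime]

/-- The nebentypus of the product. -/
def prodChar (ε : DirichletCharacter ℂ N) (ψ : DirichletCharacter ℂ ℓ) :
    DirichletCharacter ℂ (N * ℓ) :=
  DirichletCharacter.changeLevel (dvd_mul_right N ℓ) ε *
    DirichletCharacter.changeLevel (dvd_mul_left ℓ N) ψ

omit [NeZero N] in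
theorem prodChar_intCast (ε : DirichletCharacter ℂ N) (ψ : DirichletCharacter ℂ ℓ) {x : ℤ}
    (hx : IsUnit (x : ZMod (N * ℓ))) :
    prodChar ε ψ (x : ZMod (N * ℓ)) = ε (x : ZMod N) * ψ (x : ZMod ℓ) := by
  obtain ⟨u, hu⟩ := hx
  rw [prodChar, MulChar.mul_apply, ← hu, DirichletCharacter.changeLevel_eq_cast_of_dvd,
    DirichletCharacter.changeLevel_eq_cast_of_dvd, hu, ZMod.cast_intCast (dvd_mul_right N ℓ),
    ZMod.cast_intCast (dvd_mul_left ℓ N)]

omit [NeZero N] [Fact ℓ.Prime] in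
theorem mem_gamma0_of_dvd {d M : ℕ} (h : d ∣ M) {γ : SL(2, ℤ)} (hγ : γ ∈ Gamma0 M) :
    γ ∈ Gamma0 d := by
  rw [Gamma0_mem, ZMod.intCast_zmod_eq_zero_iff_dvd] at hγ ⊢
  exact (Int.natCast_dvd_natCast.2 h).trans hγ

variable {k : Type*} [Field k] [CharP k ℓ]

omit [NeZero N] in
/-- Coefficients of `2ℓ · E₁(ψ)` are congruent to those of the constant one. -/
theorem exists_eisCoeff_congr (φ : ZBar →+* k) (ψ : DirichletCharacter ℂ ℓ)
    (hψφ : ∀ (t : (ZMod ℓ)ˣ) (y : ZBar), (y : ℂ) = ψ (t : ZMod ℓ) →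
      φ y * ZMod.castHom dvd_rfl k (t : ZMod ℓ) = 1) (n : ℕ) :
    ∃ x : ZBar, (x : ℂ) = ((2 * ℓ : ℕ) : ℂ) * eisCoeff ψ n ∧ φ x = if n = 0 then 1 else 0 := by
  classical
  let w : ZMod ℓ → ZBar := fun t => ⟨ψ t, isIntegral_character ψ t⟩
  have hℓk : ((ℓ : ℕ) : k) = 0 := CharP.cast_eq_zero k ℓ
  rcases eq_or_ne n 0 with rfl | hn
  · refine ⟨-∑ t : ZMod ℓ, ((t.val : ℕ) : ZBar) * w t, ?_, ?_⟩
    · rw [show ((2 * ℓ : ℕ) : ℂ) = 2 * (ℓ : ℂ) by push_cast; ring, eisCoeff_zero_mul]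
      simp [w, -ZMod.natCast_val]
    · have hterm : ∀ t : ZMod ℓ, φ (((t.val : ℕ) : ZBar) * w t) = if t = 0 then 0 else 1 := by
        intro t
        rcases eq_or_ne t 0 with rfl | ht
        · simp
        · rw [if_neg ht, map_mul, map_natCast, mul_comm,
            ← map_natCast (ZMod.castHom dvd_rfl k) t.val, ZMod.natCast_zmod_val]
          exact hψφ (Units.mk0 t ht) (w t) rfl
      rw [map_neg, map_sum, if_pos rfl]
      simp_rw [hterm]
      rw [Finset.sum_ite, Finset.sum_const_zero, zero_add, Finset.sum_const, nsmul_one,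
        Finset.filter_ne', Finset.card_erase_of_mem (Finset.mem_univ _), Finset.card_univ,
        ZMod.card, Nat.cast_sub (Fact.out : ℓ.Prime).one_le, hℓk, Nat.cast_one, zero_sub, neg_neg]
  · refine ⟨((2 * ℓ : ℕ) : ZBar) * ∑ m ∈ n.divisors, w (m : ZMod ℓ), ?_, ?_⟩
    · rw [eisCoeff, if_neg hn]; simp only [w, Subalgebra.coe_mul, SubringClass.coe_natCast,
        AddSubmonoidClass.coe_finsetSum]
    · rw [map_mul, map_natCast, Nat.cast_mul, hℓk, mul_zero, zero_mul, if_neg hn]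

/-- The weight two form with congruent expansion. -/
theorem exists_weightTwo {ε : DirichletCharacter ℂ N} (g : CuspForm (Gamma1 N) 1)
    (hneb : HasNeb 1 ε ⇑g) (ψ : DirichletCharacter ℂ ℓ) (hψ : ψ.Odd) (φ : ZBar →+* k)
    (hψφ : ∀ (t : (ZMod ℓ)ˣ) (y : ZBar), (y : ℂ) = ψ (t : ZMod ℓ) →
      φ y * ZMod.castHom dvd_rfl k (t : ZMod ℓ) = 1)
    (a : ℕ → ZBar) (ha : ∀ n, (a n : ℂ) = qCoeff g n) :
    ∃ (f : CuspForm (Gamma1 (N * ℓ)) 2) (b : ℕ → ZBar), HasNeb 2 (prodChar ε ψ) ⇑f ∧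
      (∀ n, (b n : ℂ) = qCoeff f n) ∧ ∀ n, φ (b n) = φ (a n) := by
  haveI : NeZero ℓ := ⟨(Fact.out : ℓ.Prime).ne_zero⟩
  haveI : NeZero (N * ℓ) := ⟨mul_ne_zero (NeZero.ne N) (NeZero.ne ℓ)⟩
  have hneb₂ : HasNeb 2 (prodChar ε ψ) (⇑g * eisOne ψ) := fun γ hγ => by
    rw [show (2 : ℤ) = 1 + 1 from rfl, ModularForm.mul_slash_SL2,
      hneb γ (mem_gamma0_of_dvd (dvd_mul_right N ℓ) hγ),
      eisOne_slash_gamma0 hψ (mem_gamma0_of_dvd (dvd_mul_left ℓ N) hγ),
      prodChar_intCast ε ψ (isUnit_lowerRight hγ)]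
    funext τ
    simp only [Pi.mul_apply, Pi.smul_apply, smul_eq_mul]
    ring
  let F : CuspForm (Gamma1 (N * ℓ)) 2 := mkCuspForm (Gamma1 (N * ℓ)) 2 (⇑g * eisOne ψ)
    (fun γ hγ => hneb₂.slash_gamma1 hγ) ((CuspFormClass.holo g).mul (mdifferentiable_eisOne hψ))
    (fun γ => by
      rw [show (2 : ℤ) = 1 + 1 from rfl, ModularForm.mul_slash_SL2]
      exact (CuspFormClass.zero_at_infty_slash g γ).mul_boundedAtFilter
        (isBoundedAtImInfty_slash_eisOne hψ γ))
  choose e he hφe using exists_eisCoeff_congr φ ψ hψφ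
  set P : PowerSeries ZBar := PowerSeries.mk a * PowerSeries.mk e
  refine ⟨((2 * ℓ : ℕ) : ℂ) • F, fun n => P.coeff n, fun γ hγ => ?_, fun n => ?_, fun n => ?_⟩
  · rw [FunLike.coe_smul, ModularForm.SL_smul_slash, show ⇑F = ⇑g * eisOne ψ from rfl,
      hneb₂ γ hγ, smul_comm]
  · let qg : qFun := ⟨⇑g, mem_qFun_of_modularFormClass (by simp) g⟩
    let qe : qFun := ⟨eisOne ψ, eisOne_mem_qFun hψ⟩
    have hF : qExpansion 1 ⇑F = qHom qg * qHom qe := by
      show qHom (qg * qe) = _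
      rw [map_mul]
    rw [qCoeff, FunLike.coe_smul,
      ModularForm.qExpansion_smul one_pos one_mem_strictPeriods_gamma1, map_smul, hF, smul_eq_mul]
    simp only [P, PowerSeries.coeff_mul, PowerSeries.coeff_mk, AddSubmonoidClass.coe_finsetSum,
      Subalgebra.coe_mul, ha, he, Finset.mul_sum]
    refine Finset.sum_congr rfl fun x _ => ?_
    rw [qHom_apply, qHom_apply]
    show qCoeff g x.1 * _ = _ * (qCoeff g x.1 * (qExpansion 1 (eisOne ψ)).coeff x.2)
    rw [qExpansion_eisOne hψ]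
    ring
  · have h1 : PowerSeries.map φ (PowerSeries.mk e) = 1 := PowerSeries.ext fun i => by
      rw [PowerSeries.coeff_map, PowerSeries.coeff_mk, hφe, PowerSeries.coeff_one]
    have h2 := congrArg (PowerSeries.coeff n) (map_mul (PowerSeries.map φ) (PowerSeries.mk a)
      (PowerSeries.mk e))
    rwa [h1, mul_one, PowerSeries.coeff_map, PowerSeries.coeff_map, PowerSeries.coeff_mk] at h2

end Fermat.Agent.DeligneSerre
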