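import Fermat.Agent.DeligneSerre.Periods
import Fermat.Agent.DeligneSerre.GalInterface
import Fermat.Agent.DeligneSerre.Reduction
import Fermat.Agent.DeligneSerre.Residual.Constituent
import Fermat.Agent.DeligneSerre.Residual.Teichmuller
import Fermat.Agent.DeligneSerre.Residual.WeightTwo
import Fermat.Agent.Arith.RootsOfUnity
import Fermat.Prelude.Def_ExtCitation_AdmissibleExtension

/-!
# Residual representations from the Galois action on periods

Assuming `HasGalMatrix (N * ℓ) ℓ` for almost all primes `ℓ`, a depleted weight one eigenform of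
level `N` has residual two-dimensional representations for almost all primes.
-/

set_option autoImplicit false
set_option linter.style.haveILetI false

noncomputable section

namespace Fermat.Agent.DeligneSerre

open CongruenceSubgroup ModularFormClass
open Fermat.Agent.Arith
open Fermat.Agent.RT.GammaH
open scoped MatrixGroups

variable {N : ℕ} [NeZero N]

/-- The cyclotomic character modulo `n` on the Galois group. -/
def residualCycChar (n : ℕ) [NeZero n] : GQ →* (ZMod n)ˣ where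
  toFun σ := modularCyclotomicCharacter QBar (IsAlgClosed.card_rootsOfUnity_eq QBar n)
    (σ : QBar ≃+* QBar)
  map_one' := map_one (modularCyclotomicCharacter QBar (IsAlgClosed.card_rootsOfUnity_eq QBar n))
  map_mul' σ τ := map_mul
    (modularCyclotomicCharacter QBar (IsAlgClosed.card_rootsOfUnity_eq QBar n))
    (σ : QBar ≃+* QBar) (τ : QBar ≃+* QBar)

theorem residualCycChar_factors (n : ℕ) [NeZero n] :
    ∃ L : IntermediateField ℚ QBar, FiniteDimensional ℚ L ∧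
      ∀ σ : GQ, (∀ x ∈ L, σ x = x) → residualCycChar n σ = 1 := by
  obtain ⟨ζ, hζ⟩ : ∃ ζ : QBar, IsPrimitiveRoot ζ n :=
    HasEnoughRootsOfUnity.exists_primitiveRoot QBar n
  refine ⟨IntermediateField.adjoin ℚ {ζ},
    IntermediateField.adjoin.finiteDimensional (Algebra.IsIntegral.isIntegral ζ), fun σ hσ => ?_⟩
  apply Units.ext
  show ((modularCyclotomicCharacter QBar _ (σ : QBar ≃+* QBar) : (ZMod n)ˣ) : ZMod n) = _
  rw [modularCyclotomicCharacter_eq_natCast _ (c := 1) fun t ht => by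
    obtain ⟨i, -, rfl⟩ := hζ.eq_pow_of_pow_eq_one ht
    rw [pow_one, map_pow]
    exact congrArg (· ^ i) (hσ ζ (IntermediateField.subset_adjoin ℚ _ (Set.mem_singleton ζ)))]
  simp

/-- The value of a Dirichlet character as an algebraic integer. -/
def intChar (ε : DirichletCharacter ℂ N) : (ZMod N)ˣ →* ZBar where
  toFun u := ⟨ε (u : ZMod N), isIntegral_character ε u⟩
  map_one' := Subtype.ext (by simp)
  map_mul' u v := Subtype.ext (by simp)

theorem exists_resRep {ε : DirichletCharacter ℂ N} {g : CuspForm (Gamma1 N) 1}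
    (hg : IsDepleted ε (qCoeff g)) {ℓ : ℕ} [hℓ : Fact ℓ.Prime] (hℓ2 : ℓ ≠ 2)
    [NeZero (N * ℓ)] (hG : HasGalMatrix (N * ℓ) ℓ) : Nonempty (ResRep ε (qCoeff g) ℓ) := by
  classical
  -- a residue field
  obtain ⟨I, hI, hℓI⟩ := exists_maximal_above hℓ.out
  haveI := hI
  letI := Ideal.Quotient.field I
  let k := AlgebraicClosure (ZBar ⧸ I)
  let φ : ZBar →+* k := (algebraMap (ZBar ⧸ I) k).comp (Ideal.Quotient.mk I)
  have hφℓ : φ ℓ = 0 := by
    show algebraMap (ZBar ⧸ I) k (Ideal.Quotient.mk I ℓ) = 0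
    rw [Ideal.Quotient.eq_zero_iff_mem.2 hℓI, map_zero]
  have hℓk : (ℓ : k) = 0 := by rw [← map_natCast φ, hφℓ]
  haveI : CharP k ℓ := (CharP.charP_iff_prime_eq_zero hℓ.out).2 hℓk
  have h2 : (2 : k) ≠ 0 := fun h => hℓ2 <| by
    have h2' : ((2 : ℕ) : k) = 0 := by exact_mod_cast h
    exact (Nat.prime_dvd_prime_iff_eq hℓ.out Nat.prime_two).1 ((CharP.cast_eq_zero_iff k ℓ 2).1 h2')
  -- the weight two form
  obtain ⟨ψ, hψ, hψφ⟩ := exists_inv_teichmuller hℓ2 φ
  let a : ℕ → ZBar := fun n => ⟨qCoeff g n, isIntegral_coeff hg n⟩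
  obtain ⟨f, b, hfneb, hb, hba⟩ :=
    exists_weightTwo g hg.hecke.nebentypus ψ hψ φ hψφ a fun _ => rfl
  have hrec : ∀ p : ℕ, p.Prime → ¬ p ∣ N * ℓ → ∀ (n : ℕ) (y : ZBar),
      (y : ℂ) = prodChar ε ψ (p : ZMod (N * ℓ)) →
      φ (b (p * n)) + p * φ y * (if p ∣ n then φ (b (n / p)) else 0) = φ (b p) * φ (b n) := by
    intro p hp hpM n y hy
    have hpN : ¬ p ∣ N := fun h => hpM (h.mul_right ℓ)
    have hpℓ : ¬ p ∣ ℓ := fun h => hpM (h.mul_left N)
    obtain ⟨u, hu⟩ := (ZMod.isUnit_prime_iff_not_dvd hp).2 hpN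
    obtain ⟨t, ht⟩ := (ZMod.isUnit_prime_iff_not_dvd hp).2 hpℓ
    obtain ⟨w, hw⟩ : ∃ w : ZBar, (w : ℂ) = ψ t := ⟨⟨_, isIntegral_character ψ t⟩, rfl⟩
    have hyy : y = intChar ε u * w := Subtype.ext <| by
      rw [hy, Subalgebra.coe_mul, hw, ← Int.cast_natCast, prodChar_intCast]
      · simp [intChar, hu, ht]
      · simpa using (ZMod.isUnit_prime_iff_not_dvd hp).2 hpM
    have hpy : (p : k) * φ y = φ (intChar ε u) := by
      have h := hψφ t w hw
      rw [ht, map_natCast] at h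
      rw [hyy, map_mul, mul_comm (φ (intChar ε u)), ← mul_assoc, mul_comm (p : k), h, one_mul]
    have hrec0 : a (p * n) + intChar ε u * (if p ∣ n then a (n / p) else 0) = a p * a n := by
      refine Subtype.ext ?_
      have h := hg.hecke p hp hpN n
      rw [← hu] at h
      split_ifs with hd
      · rw [if_pos hd] at h
        simpa [a, intChar] using h
      · rw [if_neg hd] at h
        simpa [a, intChar] using h
    have h := congrArg φ hrec0
    rw [map_add, map_mul, map_mul, apply_ite φ, map_zero] at h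
    simpa only [hba, hpy] using h
  have ha1 : φ (b 1) = 1 := by
    have : a 1 = 1 := Subtype.ext hg.one
    rw [hba, this, map_one]
  -- the eigenclass
  obtain ⟨v, hv0, hvmem, hvT, hvD⟩ := exists_periodClass hfneb hℓ.out φ hφℓ b hb ha1 hrec
  let x : Fin (homRank (N * ℓ)) → k := fun i => v (Additive.ofMul (homPts (N * ℓ) i))
  have hx0 : x ≠ 0 := fun h => hv0 (eq_of_homPts hvmem (zero_mem _) fun i => congrFun h i)
  let dval : (ZMod (N * ℓ))ˣ → ZBar :=
    fun u => ⟨prodChar ε ψ (u : ZMod (N * ℓ)), isIntegral_character _ _⟩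
  let c : GoodOp (N * ℓ) → k
    | .inl p => φ (a p.1)
    | .inr u => φ (dval u)
  have hev : ∀ i, goodOp k i v = c i • v := by
    rintro (p | u)
    · haveI := Fact.mk p.2.1
      show hecke _ _ p.1 k v = φ (a p.1) • v
      rw [← hba]
      exact hvT p.1 p.2.2
    · exact hvD u (dval u) rfl
  let T : GoodOp (N * ℓ) → Matrix (Fin (homRank (N * ℓ))) (Fin (homRank (N * ℓ))) k :=
    fun i => (opMat i).map (Int.cast : ℤ → k)
  have hTx : ∀ i, Matrix.mulVec (T i) x = c i • x := fun i => funext fun j => by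
    have h := goodOp_apply_homPts (S := k) i hvmem j
    rw [hev i, AddMonoidHom.smul_apply] at h
    simp only [Matrix.mulVec, dotProduct, Pi.smul_apply, T, Matrix.map_apply, x]
    rw [h]
    simp [zsmul_eq_mul]
  -- the representation on the common eigenspace
  obtain ⟨ρ, hρL, hρc, hρ⟩ := hG
  let e : Matrix (Fin (homRank (N * ℓ))) (Fin (homRank (N * ℓ))) (ZMod ℓ) →+*
      Matrix (Fin (homRank (N * ℓ))) (Fin (homRank (N * ℓ))) k :=
    (ZMod.castHom dvd_rfl k).mapMatrix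
  have heT : ∀ i, e (opMatMod (N * ℓ) ℓ i) = T i := fun i => by
    ext s t
    simp [e, T, opMatMod]
  let R₀ : GQ →* Module.End k (Fin (homRank (N * ℓ)) → k) :=
    (Matrix.toLinAlgEquiv' : Matrix (Fin (homRank (N * ℓ))) (Fin (homRank (N * ℓ))) k ≃ₐ[k] _
      ).toMonoidHom.comp (e.toMonoidHom.comp ρ)
  have hR₀ : ∀ σ w, R₀ σ w = Matrix.mulVec (e (ρ σ)) w := fun σ w => by
    simp [R₀]
  let V : Submodule k (Fin (homRank (N * ℓ)) → k) :=
    { carrier := {w | ∀ i, Matrix.mulVec (T i) w = c i • w}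
      zero_mem' := fun i => by simp
      add_mem' := fun hw hw' i => by rw [Matrix.mulVec_add, hw i, hw' i, smul_add]
      smul_mem' := fun r w hw i => by rw [Matrix.mulVec_smul, hw i, smul_comm] }
  have hVinv : ∀ σ, ∀ w ∈ V, R₀ σ w ∈ V := fun σ w hw i => by
    have hc := (hρc i σ).map e
    rw [heT] at hc
    rw [hR₀, Matrix.mulVec_mulVec, hc.eq, ← Matrix.mulVec_mulVec, hw i, Matrix.mulVec_smul]
  let R : GQ →* Module.End k V :=
    { toFun := fun σ => (R₀ σ).restrict (hVinv σ)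
      map_one' := LinearMap.ext fun w => Subtype.ext (by simp)
      map_mul' := fun σ τ => LinearMap.ext fun w => Subtype.ext (by simp) }
  haveI : Nontrivial V := ⟨⟨⟨x, hTx⟩, 0, fun h => hx0 (congrArg Subtype.val h)⟩⟩
  let χ : GQ →* k := φ.toMonoidHom.comp ((intChar ε).comp (residualCycChar N))
  have hχfrob : ∀ p : ℕ, p.Prime → ¬ p ∣ N → ∀ A : ValuationSubring QBar, A.LiesOverPrime p →
      ∀ σ : GQ, A.IsFrobeniusAt σ p → ∀ y : ZBar, (y : ℂ) = ε (p : ZMod N) → χ σ = φ y := by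
    intro p hp hpN A hA σ hσ y hy
    show φ (intChar ε (residualCycChar N σ)) = φ y
    congr 1
    refine Subtype.ext ?_
    rw [hy]
    show ε ((residualCycChar N σ : (ZMod N)ˣ) : ZMod N) = _
    rw [← modularCyclotomicCharacter_frobenius hA hp hσ
      (IsAlgClosed.card_rootsOfUnity_eq QBar N) hpN]
    rfl
  have hfrob : ∀ p : ℕ, p.Prime → ¬ p ∣ N * ℓ → ∀ A : ValuationSubring QBar, A.LiesOverPrime p →
      ∀ σ : GQ, A.IsFrobeniusAt σ p → R σ + χ σ • R σ⁻¹ = φ (a p) • 1 := by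
    intro p hp hpM A hA σ hσ
    have hpN : ¬ p ∣ N := fun h => hpM (h.mul_right ℓ)
    have hpℓ : ¬ p ∣ ℓ := fun h => hpM (h.mul_left N)
    have hrel := congrArg e ((hρ ⟨p, hp, hpM⟩ A hA).2 σ hσ)
    rw [map_add, heT] at hrel
    set u := primeUnit (N * ℓ) ⟨p, hp, hpM⟩
    have hD : e ((p : ZMod ℓ) • (opMatMod (N * ℓ) ℓ (.inr u) * ρ σ⁻¹)) =
        (p : k) • (T (.inr u) * e (ρ σ⁻¹)) := by
      rw [← heT, ← map_mul]
      generalize opMatMod (N * ℓ) ℓ (.inr u) * ρ σ⁻¹ = B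
      ext s t
      simp [e]
    rw [hD] at hrel
    obtain ⟨u₀, hu₀⟩ := (ZMod.isUnit_prime_iff_not_dvd hp).2 hpN
    have hpd : (p : k) * c (.inr u) = χ σ := by
      obtain ⟨t, ht⟩ := (ZMod.isUnit_prime_iff_not_dvd hp).2 hpℓ
      obtain ⟨w, hw⟩ : ∃ w : ZBar, (w : ℂ) = ψ t := ⟨⟨_, isIntegral_character ψ t⟩, rfl⟩
      have hd : dval u = intChar ε u₀ * w := Subtype.ext <| by
        show prodChar ε ψ ((u : (ZMod (N * ℓ))ˣ) : ZMod (N * ℓ)) = _
        rw [Subalgebra.coe_mul, hw]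
        rw [show ((u : (ZMod (N * ℓ))ˣ) : ZMod (N * ℓ)) = ((p : ℤ) : ZMod (N * ℓ)) by
          simp [u, primeUnit, ZMod.coe_unitOfCoprime], prodChar_intCast]
        · simp [intChar, hu₀, ht]
        · simpa using (ZMod.isUnit_prime_iff_not_dvd hp).2 hpM
      have h := hψφ t w hw
      rw [ht, map_natCast] at h
      rw [hχfrob p hp hpN A hA σ hσ (intChar ε u₀) (by simp [intChar, hu₀])]
      show (p : k) * φ (dval u) = _
      rw [hd, map_mul, mul_comm (φ (intChar ε u₀)), ← mul_assoc, mul_comm (p : k), h, one_mul]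
    refine LinearMap.ext fun w => Subtype.ext ?_
    have h := congrArg (fun B => Matrix.mulVec B (w : Fin (homRank (N * ℓ)) → k)) hrel
    have hw : R₀ σ⁻¹ w ∈ V := hVinv σ⁻¹ w w.2
    simp only [Matrix.add_mulVec, Matrix.smul_mulVec, ← Matrix.mulVec_mulVec] at h
    rw [← hR₀, ← hR₀, hw (.inr u), smul_smul, hpd, w.2 (.inl ⟨p, hp, hpM⟩)] at h
    exact h
  -- finite level
  obtain ⟨L₁, hL₁, hρ1⟩ := hρL
  obtain ⟨L₂, hL₂, hχ1⟩ := residualCycChar_factors N
  let L : IntermediateField ℚ QBar := L₁ ⊔ L₂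
  haveI : FiniteDimensional ℚ L := IntermediateField.finiteDimensional_sup L₁ L₂
  have hR1 : ∀ σ, ρ σ = 1 → R σ = 1 := fun σ hσ => LinearMap.ext fun w => Subtype.ext (by
    show R₀ σ (w : Fin (homRank (N * ℓ)) → k) = w
    rw [hR₀, hσ, map_one, Matrix.one_mulVec])
  have hL : ∀ σ : GQ, (∀ y ∈ L, σ y = y) → R σ = 1 ∧ χ σ = 1 := fun σ hσ => by
    refine ⟨hR1 σ (hρ1 σ fun y hy => hσ y ((le_sup_left : L₁ ≤ L) hy)), ?_⟩
    simp [χ, hχ1 σ fun y hy => hσ y ((le_sup_right : L₂ ≤ L) hy)]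
  have hall : ∀ σ, ∃ t : k, R σ + χ σ • R σ⁻¹ = t • 1 := fun σ => by
    let M₀ : GQ →* Module.End k V × k := R.prod χ
    obtain ⟨p, hp, hpS, A, hA, τ, hτ, hτσ⟩ := Chebotarev.exists_frobenius_eq M₀ L
      (fun s hs => Prod.ext (hL s hs).1 (hL s hs).2) σ (N * ℓ).primeFactors
    have hpM : ¬ p ∣ N * ℓ := fun h =>
      hpS (Nat.mem_primeFactors.2 ⟨hp, h, NeZero.ne (N * ℓ)⟩)
    have h1 : R τ = R σ := congrArg Prod.fst hτσ
    have h2 : χ τ = χ σ := congrArg Prod.snd hτσ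
    have h3 : R τ⁻¹ = R σ⁻¹ := by
      calc R τ⁻¹ = R τ⁻¹ * (R σ * R σ⁻¹) := by rw [← map_mul R σ, mul_inv_cancel, map_one, mul_one]
        _ = R σ⁻¹ := by rw [← mul_assoc, ← h1, ← map_mul, inv_mul_cancel, map_one, one_mul]
    exact ⟨φ (a p), by rw [← h1, ← h2, ← h3]; exact hfrob p hp hpM A hA τ hτ⟩
  obtain ⟨σ₂, hshape, hker, htd⟩ := exists_rep_of_relation R χ h2 hall
  refine ⟨⟨k, φ, hφℓ, σ₂, ⟨L, inferInstance, fun s hs => hker s (hL s hs).1 (hL s hs).2⟩, hshape,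
    fun p hp hpN hpℓ A hA s hs => ?_, fun p hp hpN hpℓ A hA s hs x₀ y₀ hx₀ hy₀ => ?_⟩⟩
  · have hpM : ¬ p ∣ N * ℓ := fun h => (hp.dvd_mul.1 h).elim hpN
      fun h' => hpℓ ((Nat.prime_dvd_prime_iff_eq hp hℓ.out).1 h')
    refine hker s (hR1 s ((hρ ⟨p, hp, hpM⟩ A hA).1 s hs)) ?_
    have h1 : residualCycChar N s = 1 :=
      modularCyclotomicCharacter_inertia hA hp hs (IsAlgClosed.card_rootsOfUnity_eq QBar N) hpN
    simp [χ, h1]
  · have hpM : ¬ p ∣ N * ℓ := fun h => (hp.dvd_mul.1 h).elim hpN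
      fun h' => hpℓ ((Nat.prime_dvd_prime_iff_eq hp hℓ.out).1 h')
    obtain rfl : x₀ = a p := Subtype.ext hx₀
    rw [← hχfrob p hp hpN A hA s hs y₀ hy₀]
    exact htd s _ (hfrob p hp hpM A hA s hs)

/-- Residual representations exist given the Galois action on periods. -/
theorem hasResidualReps_of_galMatrix {ε : DirichletCharacter ℂ N} {g : CuspForm (Gamma1 N) 1}
    (hg : IsDepleted ε (qCoeff g))
    (hG : ∃ T : Finset ℕ, ∀ ℓ : ℕ, ℓ.Prime → ℓ ∉ T → ∀ _ : NeZero (N * ℓ),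
      HasGalMatrix (N * ℓ) ℓ) :
    HasResidualReps ε (qCoeff g) := by
  obtain ⟨T, hT⟩ := hG
  refine ⟨insert 2 T, fun ℓ hℓ hS => ?_⟩
  rw [Finset.mem_insert, not_or] at hS
  haveI := Fact.mk hℓ
  haveI : NeZero (N * ℓ) := ⟨mul_ne_zero (NeZero.ne N) hℓ.ne_zero⟩
  exact exists_resRep hg hS.1 (hT ℓ hℓ hS.2 inferInstance)

/-- The Deligne–Serre theorem given the Galois action on periods. -/
theorem exists_galoisRep_of_galMatrix {ε : DirichletCharacter ℂ N} {f : CuspForm (Gamma1 N) 1}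
    (hT : HeckeRec ε (qCoeff f)) (hf : qCoeff f 1 = 1)
    (hG : ∃ T : Finset ℕ, ∀ ℓ : ℕ, ℓ.Prime → ℓ ∉ T → ∀ _ : NeZero (N * N * ℓ),
      HasGalMatrix (N * N * ℓ) ℓ) :
    ∃ ρ : GQ →* GL (Fin 2) ℂ, GaloisFactorsThroughFiniteLevel ρ ∧
      (Deformation.matrixRepresentation ρ).IsIrreducible ∧
      ∀ p : ℕ, p.Prime → ¬ p ∣ N →
        ∀ A : ValuationSubring QBar, A.LiesOverPrime p →
          (∀ σ ∈ A.inertiaSubgroupIn ℚ, ρ σ = 1) ∧
          ∀ σ : GQ, A.IsFrobeniusAt σ p →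
            ((ρ σ : GL (Fin 2) ℂ) : Matrix (Fin 2) (Fin 2) ℂ).trace = qCoeff f p ∧
            ((ρ σ : GL (Fin 2) ℂ) : Matrix (Fin 2) (Fin 2) ℂ).det = ε (p : ZMod N) :=
  exists_galoisRep_of_deplete hT hf (hasResidualReps_of_galMatrix (isDepleted_deplete hT hf) hG)

end Fermat.Agent.DeligneSerre
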